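/-
S24 helper (helper94): places of a field `F` algebraic over `K(j)` with `K` algebraically closed
have residue field `K` (every element of the valuation ring is congruent to a constant), hence
degree one.
-/
import Mathlib.RingTheory.AlgebraicIndependent.TranscendenceBasis
import Mathlib.RingTheory.Valuation.IsTrivialOn
import Mathlib.RingTheory.Valuation.ValuationSubring
import Mathlib.FieldTheory.IsAlgClosed.Basic
import Fermat.Prelude.Def_AlgebraicCurve_DivisorClassGroup

set_option autoImplicit false

open Polynomial

namespace Fermat.Agent.S24.H94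

variable {K F : Type*} [Field K] [Field F] [Algebra K F]

/-- If `x - c` is a unit of the valuation ring for every constant `c` of an algebraically closed
field of constants, then every nonzero polynomial in `x` is a unit. -/
theorem valuation_aeval_eq_one [IsAlgClosed K] (A : ValuationSubring F)
    (hK : ∀ a : K, algebraMap K F a ∈ A) {x : F}
    (hx : ∀ c : K, A.valuation (x - algebraMap K F c) = 1) :
    ∀ p : K[X], p ≠ 0 → A.valuation (aeval x p) = 1 := by
  have hconst : ∀ a : K, a ≠ 0 → A.valuation (algebraMap K F a) = 1 := by
    intro a ha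
    have h1 : A.valuation (algebraMap K F a) ≤ 1 := (A.valuation_le_one_iff _).mpr (hK a)
    have h2 : A.valuation (algebraMap K F a⁻¹) ≤ 1 := (A.valuation_le_one_iff _).mpr (hK a⁻¹)
    have h3 : A.valuation (algebraMap K F a) * A.valuation (algebraMap K F a⁻¹) = 1 := by
      rw [← map_mul, ← map_mul, mul_inv_cancel₀ ha, map_one, map_one]
    refine le_antisymm h1 ?_
    calc (1 : _) = A.valuation (algebraMap K F a) * A.valuation (algebraMap K F a⁻¹) := h3.symm
      _ ≤ A.valuation (algebraMap K F a) * 1 := by gcongr
      _ = _ := mul_one _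
  intro p
  induction hn : p.natDegree using Nat.strong_induction_on generalizing p with
  | _ n ih =>
    intro hp
    by_cases hdeg : p.degree = 0
    · rw [eq_C_of_degree_eq_zero hdeg, aeval_C]
      apply hconst
      intro h0
      apply hp
      rw [eq_C_of_degree_eq_zero hdeg, h0, map_zero]
    · obtain ⟨c, hc⟩ := IsAlgClosed.exists_root p hdeg
      obtain ⟨q, rfl⟩ := dvd_iff_isRoot.mpr hc
      have hq : q ≠ 0 := right_ne_zero_of_mul hp
      have hdq : q.natDegree < n := by
        rw [← hn, natDegree_mul (X_sub_C_ne_zero c) hq, natDegree_X_sub_C]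
        omega
      rw [map_mul, map_mul, ih _ hdq q rfl hq, mul_one]
      simpa using hx c

/-- **Centers of places.** Let `K` be algebraically closed, `F` algebraic over `K[j]`, and `A` a
nontrivial valuation ring of `F` containing `K`. Then every element of `A` is congruent modulo the
maximal ideal to a (unique) constant. -/
theorem exists_sub_mem_nonunits [IsAlgClosed K] (A : ValuationSubring F)
    (hK : ∀ a : K, algebraMap K F a ∈ A) (hA : A ≠ ⊤) (j : F)
    (halg : ∀ y : F, IsAlgebraic (Algebra.adjoin K {j}) y) {x : F} (hx : x ∈ A) :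
    ∃ c : K, x - algebraMap K F c ∈ A.nonunits := by
  by_contra hcon
  push Not at hcon
  have hx1 : ∀ c : K, A.valuation (x - algebraMap K F c) = 1 := by
    intro c
    have hle : A.valuation (x - algebraMap K F c) ≤ 1 :=
      (A.valuation_le_one_iff _).mpr (A.sub_mem hx (hK c))
    have hnlt : ¬ A.valuation (x - algebraMap K F c) < 1 := fun h => hcon c h
    exact le_antisymm hle (not_lt.mp hnlt)
  have hp := valuation_aeval_eq_one A hK hx1
  have hxj : x ∈ (AlgebraicIndependent.matroid K F).closure {j} := by
    rw [AlgebraicIndependent.matroid_closure_eq]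
    exact halg x
  have hx0 : x ∉ (AlgebraicIndependent.matroid K F).closure ∅ := by
    rw [AlgebraicIndependent.matroid_closure_eq]
    intro h
    have h' : IsAlgebraic (Algebra.adjoin K (∅ : Set F)) x := h
    rw [Algebra.adjoin_empty] at h'
    have h'' : IsAlgebraic K x := Subalgebra.isAlgebraic_of_isAlgebraic_bot h'
    obtain ⟨q, hq0, hq⟩ := h''
    have := hp q hq0
    rw [hq, map_zero] at this
    exact zero_ne_one this
  have hjx : j ∈ (AlgebraicIndependent.matroid K F).closure {x} := by
    have := (AlgebraicIndependent.matroid K F).closure_exchange (X := ∅) (e := x) (f := j)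
      ⟨by simpa using hxj, hx0⟩
    simpa using this.1
  have hall : ∀ y : F, IsAlgebraic (Algebra.adjoin K {x}) y := by
    intro y
    have h1 : (AlgebraicIndependent.matroid K F).closure {j} ⊆
        (AlgebraicIndependent.matroid K F).closure {x} :=
      Matroid.closure_subset_closure_of_subset_closure (by simpa using hjx)
    have h2 : y ∈ (AlgebraicIndependent.matroid K F).closure {j} := by
      rw [AlgebraicIndependent.matroid_closure_eq]
      exact halg y
    have h3 := h1 h2
    rw [AlgebraicIndependent.matroid_closure_eq] at h3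
    exact h3
  have : A.valuation.IsTrivialOn (Algebra.adjoin K {x}) := by
    refine ⟨fun b hb => ?_⟩
    obtain ⟨b, hbm⟩ := b
    rw [Algebra.adjoin_singleton_eq_range_aeval] at hbm
    obtain ⟨q, rfl⟩ := hbm
    apply hp
    rintro rfl
    apply hb
    ext
    simp
  apply hA
  ext y
  simp only [ValuationSubring.mem_top, iff_true]
  by_cases hy0 : y = 0
  · rw [hy0]; exact A.zero_mem
  · rw [← A.valuation_le_one_iff]
    by_contra hne
    have hne' : A.valuation y ≠ 1 := fun h => hne h.le
    exact Valuation.transcendental_of_ne_one (Algebra.adjoin K {x}) y hy0 hne' (hall y)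

/-- Uniqueness of the center. -/
theorem center_unique (A : ValuationSubring F) (hK : ∀ a : K, algebraMap K F a ∈ A) {x : F}
    {c c' : K} (hc : x - algebraMap K F c ∈ A.nonunits) (hc' : x - algebraMap K F c' ∈ A.nonunits) :
    c = c' := by
  by_contra hne
  have hd : c' - c ≠ 0 := sub_ne_zero.mpr (Ne.symm hne)
  have h1 : A.valuation (algebraMap K F (c' - c)) < 1 := by
    have : algebraMap K F (c' - c) = (x - algebraMap K F c) - (x - algebraMap K F c') := by
      rw [map_sub]; ring
    rw [this]
    exact A.valuation.map_sub_lt hc hc'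
  have h2 : A.valuation (algebraMap K F (c' - c)⁻¹) ≤ 1 := (A.valuation_le_one_iff _).mpr (hK _)
  have h3 : A.valuation (algebraMap K F (c' - c)) * A.valuation (algebraMap K F (c' - c)⁻¹) = 1 := by
    rw [← map_mul, ← map_mul, mul_inv_cancel₀ hd, map_one, map_one]
  have h4 : A.valuation (algebraMap K F (c' - c)) * A.valuation (algebraMap K F (c' - c)⁻¹) < 1 :=
    mul_lt_one_of_lt_of_le h1 h2
  exact absurd h3 h4.ne

/-- The residue field of a place of `F / K` is `K` when `K` is algebraically closed and `F` is
algebraic over `K[j]`. -/
theorem algebraMap_residueField_surjective [IsAlgClosed K] (v : AlgebraicCurve.Place K F) (j : F)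
    (halg : ∀ y : F, IsAlgebraic (Algebra.adjoin K {j}) y) :
    Function.Surjective (algebraMap K v.ResidueField) := by
  intro r
  obtain ⟨a, rfl⟩ := IsLocalRing.residue_surjective r
  obtain ⟨c, hc⟩ := exists_sub_mem_nonunits v.toValuationSubring v.algebraMap_mem' v.ne_top' j halg
    a.2
  refine ⟨c, ?_⟩
  have hmem : a - algebraMap K v.toValuationSubring c ∈
      IsLocalRing.maximalIdeal v.toValuationSubring := by
    rw [ValuationSubring.valuation_lt_one_iff]
    exact hc
  have h0 := (IsLocalRing.residue_eq_zero_iff _).mpr hmem
  rw [map_sub, sub_eq_zero] at h0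
  rw [h0]
  rfl

/-- Places of `F / K` have degree one when `K` is algebraically closed and `F` is algebraic over
`K[j]`. -/
theorem deg_eq_one [IsAlgClosed K] (v : AlgebraicCurve.Place K F) (j : F)
    (halg : ∀ y : F, IsAlgebraic (Algebra.adjoin K {j}) y) : v.deg = 1 := by
  rw [AlgebraicCurve.Place.deg]
  rw [finrank_eq_one_iff_of_nonzero' (1 : v.ResidueField) one_ne_zero]
  intro w
  obtain ⟨c, rfl⟩ := algebraMap_residueField_surjective v j halg w
  exact ⟨c, by rw [Algebra.smul_def, mul_one]⟩

end Fermat.Agent.S24.H94
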